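import Mathlib

/-!
# The quadratic height attached to an almost quadratic one

A function on an abelian group which obeys the parallelogram law up to a bounded error differs by a
bounded amount from exactly one function multiplied by four under doubling, the limit of
`h (2 ^ n P) / 4 ^ n`, and that one obeys the law exactly.  With the Northcott property it vanishes
only on torsion and its pairing is positive definite on independent elements.
-/

set_option autoImplicit false

noncomputable section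

open Filter Topology Matrix

namespace FA.Height

variable {G : Type*} [AddCommGroup G]

/-- The approximations of the quadratic height. -/
def approx (h : G → ℝ) (P : G) (n : ℕ) : ℝ := h ((2 ^ n) • P) / 4 ^ n

/-- The pairing of a quadratic function. -/
def pairing (f : G → ℝ) (P Q : G) : ℝ := (f (P + Q) - f P - f Q) / 2

/-- **Existence.** -/
theorem exists_quadratic {h : G → ℝ} {C : ℝ}
    (hC : ∀ P Q, |h (P + Q) + h (P - Q) - 2 * (h P + h Q)| ≤ C) :
    ∃ f : G → ℝ, (∃ D, ∀ P, |f P - h P| ≤ D) ∧ (∀ P, f (2 • P) = 4 * f P) ∧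
      (∀ P Q, f (P + Q) + f (P - Q) = 2 * (f P + f Q)) ∧ ((∀ P, 0 ≤ h P) → ∀ P, 0 ≤ f P) := by
  have hdbl : ∀ P, |h (2 • P) - 4 * h P| ≤ C + |h 0| := fun P => by
    have h1 := abs_le.mp (hC P P)
    rw [sub_self, ← two_nsmul] at h1
    have h2 := abs_le.mp (le_refl |h 0|)
    rw [abs_le]
    constructor <;> linarith [h1.1, h1.2, h2.1, h2.2]
  have hstep : ∀ P n, dist (approx h P n) (approx h P (n + 1)) ≤
      (C + |h 0|) / 4 * (1 / 4 : ℝ) ^ n := fun P n => by
    rw [Real.dist_eq, abs_sub_comm, approx, approx, pow_succ', mul_nsmul', pow_succ' (4 : ℝ)]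
    have e : h (2 • (2 ^ n) • P) / (4 * 4 ^ n) - h ((2 ^ n) • P) / 4 ^ n =
        (h (2 • (2 ^ n) • P) - 4 * h ((2 ^ n) • P)) / (4 * 4 ^ n) := by field_simp
    rw [e, abs_div, abs_of_pos (show (0 : ℝ) < 4 * 4 ^ n by positivity), one_div, inv_pow,
      ← div_eq_mul_inv, div_div]
    exact div_le_div_of_nonneg_right (hdbl _) (by positivity)
  choose f hf using fun P => cauchySeq_tendsto_of_complete
    (cauchySeq_of_le_geometric (1 / 4) ((C + |h 0|) / 4) (by norm_num) (hstep P))
  refine ⟨f, ⟨(C + |h 0|) / 4 / (1 - 1 / 4), fun P => ?_⟩, fun P => ?_, fun P Q => ?_,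
    fun hnn P => ?_⟩
  · have h1 := dist_le_of_le_geometric_of_tendsto₀ (1 / 4) ((C + |h 0|) / 4) (by norm_num)
      (hstep P) (hf P)
    rwa [Real.dist_eq, approx, pow_zero, one_nsmul, pow_zero, div_one, abs_sub_comm] at h1
  · refine tendsto_nhds_unique (hf (2 • P)) ?_
    have h1 := ((hf P).comp (tendsto_add_atTop_nat 1)).const_mul 4
    refine h1.congr fun n => ?_
    simp only [Function.comp_apply, approx]
    rw [← mul_nsmul', ← pow_succ, pow_succ' (4 : ℝ)]
    field_simp
  · have h1 := ((hf (P + Q)).add (hf (P - Q))).sub (((hf P).add (hf Q)).const_mul 2)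
    have h2 : Tendsto (fun n : ℕ => C * (1 / 4 : ℝ) ^ n) atTop (𝓝 0) := by
      simpa using (tendsto_pow_atTop_nhds_zero_of_lt_one (r := (1 / 4 : ℝ)) (by norm_num)
        (by norm_num)).const_mul C
    refine sub_eq_zero.mp (tendsto_nhds_unique h1 (squeeze_zero_norm (fun n => ?_) h2))
    simp only [approx, nsmul_add, nsmul_sub]
    rw [Real.norm_eq_abs, one_div, inv_pow, ← div_eq_mul_inv]
    have e : ∀ a b c d : ℝ, a / 4 ^ n + b / 4 ^ n - 2 * (c / 4 ^ n + d / 4 ^ n) =
        (a + b - 2 * (c + d)) / 4 ^ n := fun a b c d => by field_simp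
    rw [e, abs_div, abs_of_pos (show (0 : ℝ) < 4 ^ n by positivity)]
    exact div_le_div_of_nonneg_right (hC _ _) (by positivity)
  · exact ge_of_tendsto' (hf P) fun n => div_nonneg (hnn _) (by positivity)

/-- **Uniqueness.** -/
theorem eq_of_bounded {h f g : G → ℝ} {D D' : ℝ} (hf : ∀ P, |f P - h P| ≤ D)
    (hg : ∀ P, |g P - h P| ≤ D') (hf2 : ∀ P, f (2 • P) = 4 * f P)
    (hg2 : ∀ P, g (2 • P) = 4 * g P) : f = g := by
  funext P
  have hpow : ∀ n : ℕ, f ((2 ^ n) • P) - g ((2 ^ n) • P) = 4 ^ n * (f P - g P) := fun n => by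
    induction n with
    | zero => simp
    | succ n ih =>
      rw [pow_succ', mul_nsmul', hf2, hg2, ← mul_sub, ih]
      ring
  have hb : ∀ n : ℕ, |f P - g P| ≤ (D + D') * (1 / 4 : ℝ) ^ n := fun n => by
    have h1 : |4 ^ n * (f P - g P)| ≤ D + D' := by
      rw [← hpow n]
      have h2 := abs_le.mp (hf ((2 ^ n) • P))
      have h3 := abs_le.mp (hg ((2 ^ n) • P))
      rw [abs_le]
      constructor <;> linarith [h2.1, h2.2, h3.1, h3.2]
    rw [abs_mul, abs_of_pos (show (0 : ℝ) < 4 ^ n by positivity)] at h1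
    rw [one_div, inv_pow, ← div_eq_mul_inv, le_div_iff₀ (by positivity)]
    linarith
  have h2 : Tendsto (fun n : ℕ => (D + D') * (1 / 4 : ℝ) ^ n) atTop (𝓝 0) := by
    simpa using (tendsto_pow_atTop_nhds_zero_of_lt_one (r := (1 / 4 : ℝ)) (by norm_num)
      (by norm_num)).const_mul (D + D')
  exact sub_eq_zero.mp (abs_eq_zero.mp (le_antisymm (ge_of_tendsto' h2 hb) (abs_nonneg _)))

variable {f : G → ℝ} (hpar : ∀ P Q, f (P + Q) + f (P - Q) = 2 * (f P + f Q))

include hpar

theorem map_zero_of_law : f 0 = 0 := by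
  have h := hpar 0 0
  rw [add_zero, sub_zero] at h
  linarith

theorem map_neg_of_law (P : G) : f (-P) = f P := by
  have h := hpar 0 P
  rw [zero_add, zero_sub, map_zero_of_law hpar] at h
  linarith

theorem map_nsmul_of_law (n : ℕ) (P : G) : f (n • P) = n ^ 2 * f P := by
  induction n using Nat.twoStepInduction with
  | zero => simp [map_zero_of_law hpar]
  | one => simp
  | more n h0 h1 =>
    have h := hpar ((n + 1) • P) P
    rw [← succ_nsmul, show (n + 1) • P - P = n • P by rw [succ_nsmul, add_sub_cancel_right],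
      h0, h1] at h
    push_cast at h ⊢
    linarith

theorem map_zsmul_of_law (n : ℤ) (P : G) : f (n • P) = n ^ 2 * f P := by
  rcases Int.eq_nat_or_neg n with ⟨k, rfl | rfl⟩
  · rw [natCast_zsmul, map_nsmul_of_law hpar]
    simp
  · rw [neg_zsmul, map_neg_of_law hpar, natCast_zsmul, map_nsmul_of_law hpar]
    simp

theorem pairing_add_left (P Q R : G) :
    pairing f (P + Q) R = pairing f P R + pairing f Q R := by
  have a := hpar (P + R) Q
  have b := hpar P (R - Q)
  have c := hpar (P + Q) R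
  have d := hpar R Q
  rw [show P + R + Q = P + Q + R by abel] at a
  rw [show P + (R - Q) = P + R - Q by abel, show P - (R - Q) = P + Q - R by abel] at b
  rw [add_comm R Q] at d
  simp only [pairing]
  linarith

omit hpar in
theorem pairing_comm (P Q : G) : pairing f P Q = pairing f Q P := by
  simp only [pairing, add_comm P Q]; ring

theorem pairing_self (P : G) : pairing f P P = f P := by
  rw [pairing, ← two_nsmul, map_nsmul_of_law hpar]
  push_cast
  ring

/-- The pairing against a fixed element. -/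
def pairingHom (R : G) : G →+ ℝ :=
  AddMonoidHom.mk' (fun P => pairing f P R) fun P Q => pairing_add_left hpar P Q R

theorem map_sum_zsmul {ι : Type*} [Fintype ι] (n : ι → ℤ) (P : ι → G) :
    f (∑ i, n i • P i) = ∑ i, ∑ j, (n i : ℝ) * n j * pairing f (P i) (P j) := by
  have h1 : ∀ R, pairing f (∑ i, n i • P i) R = ∑ i, (n i : ℝ) * pairing f (P i) R := fun R => by
    show pairingHom hpar R (∑ i, n i • P i) = _
    simp only [map_sum, map_zsmul, zsmul_eq_mul]
    rfl
  rw [← pairing_self hpar, h1]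
  refine Finset.sum_congr rfl fun i _ => ?_
  rw [pairing_comm, h1, Finset.mul_sum]
  exact Finset.sum_congr rfl fun j _ => by rw [pairing_comm]; ring

variable (hnn : ∀ P, 0 ≤ f P) (hfin : ∀ b, {P | f P ≤ b}.Finite)

include hfin in
theorem eq_zero_iff_of_finite (P : G) : f P = 0 ↔ IsOfFinAddOrder P := by
  refine ⟨fun h => ?_, fun h => ?_⟩
  · obtain ⟨a, -, b, -, hab, e⟩ := Set.Infinite.exists_ne_map_eq_of_mapsTo
      (f := fun k : ℕ => k • P) (Set.infinite_univ (α := ℕ))
      (fun k _ => show f (k • P) ≤ 0 by rw [map_nsmul_of_law hpar, h, mul_zero]) (hfin 0)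
    refine isOfFinAddOrder_iff_zsmul_eq_zero.mpr ⟨(a : ℤ) - b, by omega, ?_⟩
    rw [sub_zsmul, natCast_zsmul, natCast_zsmul, ← sub_eq_add_neg, sub_eq_zero]
    exact e
  · obtain ⟨n, hn, hP⟩ := isOfFinAddOrder_iff_nsmul_eq_zero.mp h
    have h1 := map_nsmul_of_law hpar n P
    rw [hP, map_zero_of_law hpar, eq_comm, mul_eq_zero] at h1
    exact h1.resolve_left (pow_ne_zero _ (Nat.cast_ne_zero.mpr (Nat.pos_iff_ne_zero.mp hn)))

include hnn hfin in
/-- **The pairing is positive definite on independent elements.** -/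
theorem pairing_posDef {ι : Type*} [Fintype ι] {P : ι → G} (hP : LinearIndependent ℤ P) :
    (Matrix.of fun i j => pairing f (P i) (P j)).PosDef := by
  set M := Matrix.of fun i j => pairing f (P i) (P j)
  let β : (ι → ℝ) → (ι → ℝ) → ℝ := fun v w => ∑ i, ∑ j, v i * w j * M i j
  have hβ : ∀ v, star v ⬝ᵥ (M *ᵥ v) = β v v := fun v => by
    simp only [dotProduct, Matrix.mulVec, Finset.mul_sum, Pi.star_apply, star_trivial, β]
    exact Finset.sum_congr rfl fun i _ => Finset.sum_congr rfl fun j _ => by ring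
  have hexp : ∀ (t : ℝ) (v w : ι → ℝ), β (fun i => t * v i + w i) (fun i => t * v i + w i) =
      t ^ 2 * β v v + t * (β v w + β w v) + β w w := fun t v w => by
    simp only [β, mul_add, Finset.mul_sum, ← Finset.sum_add_distrib]
    exact Finset.sum_congr rfl fun i _ => Finset.sum_congr rfl fun j _ => by ring
  have hint : ∀ n : ι → ℤ,
      β (fun i => (n i : ℝ)) (fun i => (n i : ℝ)) = f (∑ i, n i • P i) :=
    fun n => (map_sum_zsmul hpar n P).symm
  -- rounding a multiple of a real vector
  have hround : ∀ (v : ι → ℝ) (k : ℕ), ∃ (m : ι → ℤ) (u : ι → ℝ), (∀ i, |u i| ≤ 1) ∧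
      (fun i => (m i : ℝ)) = fun i => (k : ℝ) * v i + u i := fun v k =>
    ⟨fun i => round ((k : ℝ) * v i), fun i => round ((k : ℝ) * v i) - (k : ℝ) * v i,
      fun i => (abs_sub_comm _ _).trans_le ((abs_sub_round _).trans (by norm_num)),
      funext fun i => by ring⟩
  have hS : ∀ v : ι → ℝ, ∃ S, 0 ≤ S ∧ ∀ a b : ι → ℝ, (∀ i, |a i| ≤ |v i| + 1) →
      (∀ i, |b i| ≤ |v i| + 1) → |β a b| ≤ S := fun v =>
    ⟨∑ i, ∑ j, (|v i| + 1) * (|v j| + 1) * |M i j|, by positivity, fun a b ha hb =>
      (Finset.abs_sum_le_sum_abs _ _).trans (Finset.sum_le_sum fun i _ =>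
        (Finset.abs_sum_le_sum_abs _ _).trans (Finset.sum_le_sum fun j _ => by
          rw [abs_mul, abs_mul]
          exact mul_le_mul_of_nonneg_right
            (mul_le_mul (ha i) (hb j) (abs_nonneg _) (by positivity)) (abs_nonneg _)))⟩
  have hsemi : ∀ v, 0 ≤ β v v := fun v => by
    by_contra hneg
    push Not at hneg
    obtain ⟨S, hS0, hS⟩ := hS v
    obtain ⟨k, hk⟩ := exists_nat_gt (3 * S / -β v v)
    obtain ⟨m, u, hu, hm⟩ := hround v k
    have h := hnn (∑ i, m i • P i)
    rw [← hint, hm, hexp] at h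
    have hu' : ∀ i, |u i| ≤ |v i| + 1 := fun i =>
      (hu i).trans (le_add_of_nonneg_left (abs_nonneg _))
    have hv' : ∀ i, |v i| ≤ |v i| + 1 := fun i => le_add_of_nonneg_right zero_le_one
    have h1 := abs_le.mp (hS v u hv' hu')
    have h2 := abs_le.mp (hS u v hu' hv')
    have h3 := abs_le.mp (hS u u hu' hu')
    rw [div_lt_iff₀ (neg_pos.mpr hneg)] at hk
    have hk1 : (1 : ℝ) ≤ k := by
      have : k ≠ 0 := fun e => by
        rw [e, Nat.cast_zero, zero_mul] at hk
        linarith
      exact_mod_cast Nat.one_le_iff_ne_zero.mpr this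
    nlinarith
  refine Matrix.PosDef.of_dotProduct_mulVec_pos
    (Matrix.ext fun i j => pairing_comm (P j) (P i)) fun v hv => ?_
  rw [hβ]
  refine lt_of_le_of_ne (hsemi v) fun h0 => hv ?_
  -- a null vector pairs to zero with everything, so roundings of its multiples have bounded height
  have hzero : ∀ w, β v w + β w v = 0 := fun w => by
    by_contra hne
    have h := hsemi fun i => -(β w w + 1) / (β v w + β w v) * v i + w i
    rw [hexp, ← h0, mul_zero, zero_add, div_mul_cancel₀ _ hne] at h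
    linarith
  obtain ⟨S, -, hS⟩ := hS 0
  choose m u hu hm using hround v
  have hinj : Function.Injective fun m : ι → ℤ => ∑ i, m i • P i := fun a b e => by
    have h := Fintype.linearIndependent_iff.mp hP (a - b) (by
      simp only [Pi.sub_apply, sub_zsmul, Finset.sum_add_distrib, Finset.sum_neg_distrib]
      exact add_neg_eq_zero.mpr e)
    exact funext fun i => sub_eq_zero.mp (h i)
  have hfm : (Set.range m).Finite := by
    refine Set.Finite.of_finite_image ((hfin S).subset ?_) hinj.injOn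
    rintro _ ⟨_, ⟨k, rfl⟩, rfl⟩
    show f _ ≤ S
    rw [← hint, hm, hexp, ← h0, hzero, mul_zero, mul_zero, zero_add, zero_add]
    exact (abs_le.mp (hS (u k) (u k) (fun i => by simpa using hu k i)
      fun i => by simpa using hu k i)).2
  obtain ⟨B, hB⟩ := (hfm.image fun a i => |(a i : ℝ)|).bddAbove
  funext i
  by_contra hi
  obtain ⟨k, hk⟩ := exists_nat_gt ((B i + 1) / |v i|)
  rw [div_lt_iff₀ (abs_pos.mpr hi)] at hk
  have h1 : |(m k i : ℝ)| ≤ B i := hB ⟨m k, ⟨k, rfl⟩, rfl⟩ i
  have h2 : (m k i : ℝ) = (k : ℝ) * v i + u k i := congrFun (hm k) i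
  have h3 := hu k i
  have h4 : (k : ℝ) * |v i| ≤ |(m k i : ℝ)| + |u k i| := by
    rw [← abs_of_nonneg (Nat.cast_nonneg (α := ℝ) k), ← abs_mul,
      show (k : ℝ) * v i = (m k i : ℝ) - u k i by linarith]
    exact abs_sub _ _
  linarith

end FA.Height

end
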