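import Fermat.Agent.Height.NeronTate

/-!
# Counting the elements of bounded height

The integral vectors at which a positive definite form is at most `B` number asymptotically the
volume of the unit ball times `B ^ (r / 2)` over the square root of the determinant; so a finitely
generated group with a quadratic height has that many elements of height at most `B` times its
torsion, and a bounded change of the height does not alter this.
-/

set_option autoImplicit false
set_option linter.style.haveILetI false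
set_option linter.unusedSectionVars false

noncomputable section

open Filter Topology Matrix MeasureTheory
open scoped Real Pointwise

namespace FA.Height

/-- The volume of the Euclidean unit ball, as a function of the dimension. -/
def ballVolume (r : ℕ) : ℝ := √π ^ r / Real.Gamma ((r : ℝ) / 2 + 1)

variable {ι : Type*} [Fintype ι]

theorem ballVolume_pos (r : ℕ) : 0 < ballVolume r :=
  div_pos (pow_pos (Real.sqrt_pos.mpr Real.pi_pos) r) (Real.Gamma_pos_of_pos (by positivity))

/-- The volume of the unit ball inside `ι → ℝ`. -/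
theorem volume_unit_ball :
    volume {w : ι → ℝ | ∑ i, w i ^ 2 ≤ 1} = ENNReal.ofReal (ballVolume (Fintype.card ι)) := by
  rcases isEmpty_or_nonempty ι with h | h
  · have e : {w : ι → ℝ | ∑ i, w i ^ 2 ≤ 1} = Set.univ := by
      refine Set.eq_univ_of_forall fun w => ?_
      show ∑ i, w i ^ 2 ≤ 1
      simp
    rw [e, volume_pi, Measure.pi_univ]
    simp [ballVolume, Fintype.card_eq_zero]
  have hmp := PiLp.volume_preserving_ofLp ι
  have hmeas : MeasurableSet {w : ι → ℝ | ∑ i, w i ^ 2 ≤ 1} :=
    measurableSet_le (by fun_prop) measurable_const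
  rw [← hmp.measure_preimage hmeas.nullMeasurableSet]
  have e : (@WithLp.ofLp 2 (ι → ℝ)) ⁻¹' {w : ι → ℝ | ∑ i, w i ^ 2 ≤ 1} =
      Metric.closedBall (0 : EuclideanSpace ℝ ι) 1 := by
    ext w
    simp only [Set.mem_preimage, Set.mem_ofPred_eq, Metric.mem_closedBall, dist_zero_right]
    rw [EuclideanSpace.norm_eq, Real.sqrt_le_one]
    simp
  rw [e, EuclideanSpace.volume_closedBall]
  simp [ballVolume]

variable [DecidableEq ι]

/-- A positive definite matrix is `Aᵀ A` with `A` invertible. -/
theorem exists_factor {M : Matrix ι ι ℝ} (hM : M.PosDef) :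
    ∃ A : Matrix ι ι ℝ, Aᵀ * A = M ∧ A.det ≠ 0 ∧ |A.det| = √M.det := by
  set U : Matrix ι ι ℝ := (hM.1.eigenvectorUnitary : Matrix ι ι ℝ)
  set A := Matrix.diagonal (fun i => √(hM.1.eigenvalues i)) * star U
  have hA : Aᵀ * A = M := by
    conv_rhs => rw [hM.1.spectral_theorem]
    rw [Unitary.conjStarAlgAut_apply]
    simp only [A, U, Matrix.transpose_mul, Matrix.diagonal_transpose, Matrix.star_eq_conjTranspose,
      Matrix.conjTranspose_eq_transpose_of_trivial, Matrix.transpose_transpose]
    rw [← Matrix.mul_assoc, Matrix.mul_assoc _ (Matrix.diagonal _) (Matrix.diagonal _),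
      Matrix.diagonal_mul_diagonal]
    congr 3
    funext i
    simp [Real.mul_self_sqrt (hM.eigenvalues_pos i).le]
  have hdet : A.det ^ 2 = M.det := by
    have h := congrArg Matrix.det hA
    rw [Matrix.det_mul, Matrix.det_transpose] at h
    rw [← h, pow_two]
  refine ⟨A, hA, fun e => hM.det_pos.ne' (by rw [← hdet, e]; ring), ?_⟩
  rw [← hdet, Real.sqrt_sq_eq_abs]

/-- A positive definite form as a sum of squares. -/
theorem sum_mul_eq {M A : Matrix ι ι ℝ} (hA : Aᵀ * A = M) (v : ι → ℝ) :
    ∑ i, ∑ j, v i * v j * M i j = ∑ k, (A *ᵥ v) k ^ 2 := by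
  simp only [← hA, Matrix.mul_apply, Matrix.transpose_apply, Matrix.mulVec, dotProduct, pow_two,
    Finset.mul_sum, Finset.sum_mul]
  conv_rhs => rw [Finset.sum_comm]; arg 2; ext i; rw [Finset.sum_comm]
  exact Finset.sum_congr rfl fun i _ => Finset.sum_congr rfl fun j _ =>
    Finset.sum_congr rfl fun k _ => by ring

/-- **The number of integral vectors in growing ellipsoids.** -/
theorem tendsto_lattice_count {M : Matrix ι ι ℝ} (hM : M.PosDef) :
    Tendsto (fun B : ℝ => (Nat.card {n : ι → ℤ // ∑ i, ∑ j, (n i : ℝ) * n j * M i j ≤ B} : ℝ) /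
      B ^ ((Fintype.card ι : ℝ) / 2)) atTop
      (𝓝 (ballVolume (Fintype.card ι) / √M.det)) := by
  obtain ⟨A, hA, hA0, hAdet⟩ := exists_factor hM
  set s := {v : ι → ℝ | ∑ i, ∑ j, v i * v j * M i j ≤ 1}
  set D := {w : ι → ℝ | ∑ i, w i ^ 2 ≤ 1}
  have hsD : s = A.mulVecLin ⁻¹' D := by
    ext v
    simp [s, D, sum_mul_eq hA v]
  have hD1 : IsClosed D := isClosed_le (by fun_prop) continuous_const
  have hD2 : Bornology.IsBounded D := by
    refine (Metric.isBounded_closedBall (x := (0 : ι → ℝ)) (r := 1)).subset fun w hw => ?_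
    rw [Metric.mem_closedBall, dist_zero_right, pi_norm_le_iff_of_nonneg zero_le_one]
    intro i
    rw [Real.norm_eq_abs, ← sq_le_one_iff_abs_le_one]
    exact le_trans (Finset.single_le_sum (f := fun i => w i ^ 2) (fun j _ => sq_nonneg _)
      (Finset.mem_univ i)) hw
  have hsimg : s = A⁻¹.mulVecLin '' D := by
    rw [hsD]
    ext v
    refine ⟨fun hv => ⟨A.mulVecLin v, hv, ?_⟩, ?_⟩
    · simp [Matrix.mulVec_mulVec, Matrix.nonsing_inv_mul _ (isUnit_iff_ne_zero.mpr hA0)]
    · rintro ⟨w, hw, rfl⟩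
      simpa [Matrix.mulVec_mulVec, Matrix.mul_nonsing_inv _ (isUnit_iff_ne_zero.mpr hA0)] using hw
  have hcpt : IsCompact s := hsimg ▸
    (Metric.isCompact_of_isClosed_isBounded hD1 hD2).image
      (LinearMap.continuous_of_finiteDimensional _)
  have hconvD : Convex ℝ D := by
    intro v hv w hw a b ha hb hab
    have hpt : ∀ i, (a * v i + b * w i) ^ 2 ≤ a * v i ^ 2 + b * w i ^ 2 := fun i => by
      obtain rfl : b = 1 - a := by linarith
      nlinarith [mul_nonneg (mul_nonneg ha hb) (sq_nonneg (v i - w i))]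
    have hv' : ∑ i, v i ^ 2 ≤ 1 := hv
    have hw' : ∑ i, w i ^ 2 ≤ 1 := hw
    show ∑ i, (a * v i + b * w i) ^ 2 ≤ 1
    calc ∑ i, (a * v i + b * w i) ^ 2 ≤ ∑ i, (a * v i ^ 2 + b * w i ^ 2) :=
          Finset.sum_le_sum fun i _ => hpt i
      _ = a * ∑ i, v i ^ 2 + b * ∑ i, w i ^ 2 := by
          rw [Finset.sum_add_distrib, Finset.mul_sum, Finset.mul_sum]
      _ ≤ a * 1 + b * 1 := by gcongr
      _ = 1 := by linarith
  have hconv : Convex ℝ s := hsD ▸ hconvD.linear_preimage _
  have hvol : volume.real s = ballVolume (Fintype.card ι) / √M.det := by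
    have hdet : LinearMap.det A.mulVecLin = A.det := by
      rw [← Matrix.toLin'_apply', LinearMap.det_toLin']
    rw [Measure.real, hsD, Measure.addHaar_preimage_linearMap volume (hdet.symm ▸ hA0),
      volume_unit_ball,
      hdet, ENNReal.toReal_mul, ENNReal.toReal_ofReal (abs_nonneg _),
      ENNReal.toReal_ofReal (ballVolume_pos _).le, abs_inv, hAdet, inv_mul_eq_div]
  have hscale : ∀ ⦃x y : ℝ⦄, 0 < x → x ≤ y → x • s ⊆ y • s := by
    rintro x y hx hxy _ ⟨v, hv, rfl⟩
    have hy := hx.trans_le hxy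
    refine ⟨(x / y) • v, ?_, ?_⟩
    · show ∑ i, ∑ j, ((x / y) • v) i * ((x / y) • v) j * M i j ≤ 1
      have e : ∑ i, ∑ j, ((x / y) • v) i * ((x / y) • v) j * M i j =
          (x / y) ^ 2 * ∑ i, ∑ j, v i * v j * M i j := by
        simp only [Pi.smul_apply, smul_eq_mul, Finset.mul_sum]
        exact Finset.sum_congr rfl fun i _ => Finset.sum_congr rfl fun j _ => by ring
      rw [e]
      exact mul_le_one₀ (pow_le_one₀ (by positivity) ((div_le_one hy).mpr hxy))
        (by rw [sum_mul_eq hA]; exact Finset.sum_nonneg fun k _ => sq_nonneg _) hv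
    · show y • (x / y) • v = x • v
      rw [smul_smul, mul_div_cancel₀ _ hy.ne']
  have h := (tendsto_card_div_pow_atTop_volume' s hcpt.isBounded hcpt.isClosed.measurableSet
    (hconv.addHaar_frontier volume) hscale).comp Real.tendsto_sqrt_atTop
  rw [hvol] at h
  refine h.congr' ?_
  filter_upwards [eventually_gt_atTop 0] with B hB
  have hx : (√B)⁻¹ ≠ 0 := inv_ne_zero (Real.sqrt_ne_zero'.mpr hB)
  have hset : s ∩ (√B)⁻¹ • (Submodule.span ℤ (Set.range (Pi.basisFun ℝ ι)) : Set (ι → ℝ)) =
      (fun n : ι → ℤ => fun i => (√B)⁻¹ * (n i : ℝ)) ''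
        {n | ∑ i, ∑ j, (n i : ℝ) * n j * M i j ≤ B} := by
    have e : ∀ n : ι → ℤ, ∑ i, ∑ j, ((√B)⁻¹ * (n i : ℝ)) * ((√B)⁻¹ * n j) * M i j =
        B⁻¹ * ∑ i, ∑ j, (n i : ℝ) * n j * M i j := fun n => by
      simp only [Finset.mul_sum]
      refine Finset.sum_congr rfl fun i _ => Finset.sum_congr rfl fun j _ => ?_
      rw [show B⁻¹ = (√B)⁻¹ * (√B)⁻¹ by rw [← mul_inv, Real.mul_self_sqrt hB.le]]
      ring
    ext v
    constructor
    · rintro ⟨hv, w, hw, rfl⟩
      rw [SetLike.mem_coe, Module.Basis.mem_span_iff_repr_mem] at hw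
      choose n hn using fun i => hw i
      have hwn : w = fun i => (n i : ℝ) := funext fun i => by
        simpa using (hn i).symm
      subst hwn
      refine ⟨n, ?_, rfl⟩
      have hv' : ∑ i, ∑ j, ((√B)⁻¹ * (n i : ℝ)) * ((√B)⁻¹ * n j) * M i j ≤ 1 := hv
      rwa [e, inv_mul_le_one₀ hB] at hv'
    · rintro ⟨n, hn, rfl⟩
      refine ⟨?_, fun i => (n i : ℝ), ?_, rfl⟩
      · show ∑ i, ∑ j, ((√B)⁻¹ * (n i : ℝ)) * ((√B)⁻¹ * n j) * M i j ≤ 1
        rwa [e, inv_mul_le_one₀ hB]
      · rw [SetLike.mem_coe, Module.Basis.mem_span_iff_repr_mem]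
        exact fun i => ⟨n i, by simp⟩
  rw [Function.comp_apply, hset, Nat.card_image_of_injective (fun a b e => funext fun i => by
    exact_mod_cast mul_left_cancel₀ hx (congrFun e i))]
  rw [Real.sqrt_eq_rpow, ← Real.rpow_natCast, ← Real.rpow_mul hB.le, one_div, inv_mul_eq_div]
  rfl

variable {G : Type*} [AddCommGroup G] {f : G → ℝ}
  (hpar : ∀ P Q, f (P + Q) + f (P - Q) = 2 * (f P + f Q))

include hpar in
/-- Torsion does not change the height. -/
theorem map_add_torsion {t : G} (ht : IsOfFinAddOrder t) (x : G) : f (t + x) = f x := by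
  obtain ⟨n, hn, htn⟩ := isOfFinAddOrder_iff_nsmul_eq_zero.mp ht
  have h1 : ∀ y, pairing f t y = 0 := fun y => by
    have h := map_nsmul (pairingHom hpar y) n t
    rw [htn, map_zero] at h
    exact (smul_eq_zero.mp h.symm).resolve_left (Nat.pos_iff_ne_zero.mp hn)
  have h2 := h1 x
  have h3 := h1 t
  rw [pairing_self hpar] at h3
  rw [pairing] at h2
  linarith

include hpar in
/-- **Néron's count**: elements `P i` independent and spanning modulo torsion make the number of
elements of height at most `B` asymptotic to the torsion times the ball over the square root of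
the regulator times `B ^ (r / 2)`. -/
theorem tendsto_count (hnn : ∀ P, 0 ≤ f P) (hfin : ∀ b, {P | f P ≤ b}.Finite) {P : ι → G}
    (hP : LinearIndependent ℤ P) (hspan : ∀ x, ∃ n : ι → ℤ, IsOfFinAddOrder (x - ∑ i, n i • P i))
    {g : G → ℝ} {C : ℝ} (hg : ∀ x, |g x - f x| ≤ C) :
    Tendsto (fun B : ℝ => ({x | g x ≤ B}.ncard : ℝ) / B ^ ((Fintype.card ι : ℝ) / 2)) atTop
      (𝓝 (Nat.card (AddCommGroup.torsion G) * ballVolume (Fintype.card ι) /
        √(Matrix.of fun i j => pairing f (P i) (P j)).det)) := by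
  set M := Matrix.of fun i j => pairing f (P i) (P j)
  set r : ℝ := (Fintype.card ι : ℝ) / 2
  have hM : M.PosDef := pairing_posDef hpar hnn hfin hP
  let e : AddCommGroup.torsion G × (ι → ℤ) → G := fun z => z.1.1 + ∑ i, z.2 i • P i
  have he : Function.Bijective e := by
    refine ⟨fun z z' h => ?_, fun x => ?_⟩
    · have h' : ∑ i, (z.2 i - z'.2 i) • P i = z'.1.1 - z.1.1 := by
        simp only [sub_zsmul, Finset.sum_add_distrib, Finset.sum_neg_distrib]
        have h0 : z.1.1 + ∑ i, z.2 i • P i = z'.1.1 + ∑ i, z'.2 i • P i := h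
        linear_combination (norm := abel) h0
      obtain ⟨k, hk, hk0⟩ := isOfFinAddOrder_iff_zsmul_eq_zero.mp
        ((AddCommGroup.torsion G).sub_mem z'.1.2 z.1.2 : z'.1.1 - z.1.1 ∈ AddCommGroup.torsion G)
      rw [← h', Finset.smul_sum] at hk0
      have h2 : z.2 = z'.2 := funext fun i => sub_eq_zero.mp
        ((mul_eq_zero.mp (Fintype.linearIndependent_iff.mp hP _ ((Finset.sum_congr rfl fun i _ =>
          mul_zsmul (P i) k _).trans hk0) i)).resolve_left hk)
      refine Prod.ext (Subtype.ext ?_) h2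
      have h0 : z.1.1 + ∑ i, z.2 i • P i = z'.1.1 + ∑ i, z'.2 i • P i := h
      rw [h2] at h0
      exact add_right_cancel h0
    · obtain ⟨n, hn⟩ := hspan x
      exact ⟨(⟨_, hn⟩, n), sub_add_cancel x _⟩
  have hval : ∀ z, f (e z) = ∑ i, ∑ j, (z.2 i : ℝ) * z.2 j * M i j := fun z => by
    rw [map_add_torsion hpar z.1.2, map_sum_zsmul hpar]
    rfl
  have hcount : ∀ B : ℝ, ({x | f x ≤ B}.ncard : ℝ) = Nat.card (AddCommGroup.torsion G) *
      (Nat.card {n : ι → ℤ // ∑ i, ∑ j, (n i : ℝ) * n j * M i j ≤ B} : ℝ) := fun B => by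
    rw [← Nat.cast_mul, ← Nat.card_prod, ← Nat.card_coe_set_eq]
    congr 1
    refine (Nat.card_congr (Equiv.ofBijective
      (fun z => (⟨e (z.1, z.2.1), show f _ ≤ B by rw [hval]; exact z.2.2⟩ : {x | f x ≤ B}))
      ⟨fun z z' h => ?_, fun x => ?_⟩)).symm
    · have h' := he.1 (congrArg Subtype.val h)
      rw [Prod.mk.injEq] at h'
      exact Prod.ext h'.1 (Subtype.ext h'.2)
    · obtain ⟨z, hz⟩ := he.2 x.1
      exact ⟨(z.1, ⟨z.2, by rw [← hval, hz]; exact x.2⟩), Subtype.ext hz⟩
  have hlim := ((tendsto_lattice_count hM).const_mul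
    (Nat.card (AddCommGroup.torsion G) : ℝ))
  rw [← mul_div_assoc] at hlim
  -- shifting the bound by a constant does not change the limit
  have hshift : ∀ c : ℝ, Tendsto (fun B : ℝ => ({x | f x ≤ B + c}.ncard : ℝ) / B ^ r) atTop
      (𝓝 (Nat.card (AddCommGroup.torsion G) * ballVolume (Fintype.card ι) / √M.det)) := fun c => by
    have h1 := hlim.comp (tendsto_atTop_add_const_right atTop c tendsto_id)
    have h2 : Tendsto (fun B : ℝ => ((B + c) / B) ^ r) atTop (𝓝 (1 ^ r)) := by
      refine Tendsto.rpow_const ?_ (Or.inl one_ne_zero)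
      have h3 := (tendsto_inv_atTop_zero (𝕜 := ℝ)).const_mul c
      rw [mul_zero] at h3
      have h4 := h3.const_add 1
      rw [add_zero] at h4
      refine h4.congr' ?_
      filter_upwards [eventually_gt_atTop 0] with B hB
      field_simp
    rw [Real.one_rpow] at h2
    have h5 := h1.mul h2
    rw [mul_one] at h5
    refine h5.congr' ?_
    filter_upwards [eventually_gt_atTop 0, eventually_gt_atTop (-c)] with B hB hBc
    have hBc' : 0 < B + c := by linarith
    simp only [Function.comp_apply, id]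
    rw [Real.div_rpow hBc'.le hB.le, hcount]
    have := (Real.rpow_pos_of_pos hBc' r).ne'
    have := (Real.rpow_pos_of_pos hB r).ne'
    simp only [r] at *
    field_simp
  refine tendsto_of_tendsto_of_tendsto_of_le_of_le' (hshift (-C)) (hshift C) ?_ ?_ <;>
    filter_upwards [eventually_gt_atTop 0] with B hB <;>
    refine div_le_div_of_nonneg_right (Nat.cast_le.mpr (Set.ncard_le_ncard ?_ ?_))
      (Real.rpow_nonneg hB.le _)
  · intro x hx
    have := abs_le.mp (hg x)
    have hx' : f x ≤ B + -C := hx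
    show g x ≤ B
    linarith
  · exact (hfin (B + C)).subset fun x hx => by
      have := abs_le.mp (hg x)
      have hx' : g x ≤ B := hx
      show f x ≤ B + C
      linarith
  · intro x hx
    have := abs_le.mp (hg x)
    have hx' : g x ≤ B := hx
    show f x ≤ B + C
    linarith
  · exact hfin _

/-- A finitely generated group has a basis modulo torsion, as large as its rank. -/
theorem exists_basis_mod_torsion (G : Type*) [AddCommGroup G] [Module.Finite ℤ G] :
    ∃ P : Fin (Module.finrank ℤ G) → G, LinearIndependent ℤ P ∧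
      ∀ x, ∃ n : Fin (Module.finrank ℤ G) → ℤ, IsOfFinAddOrder (x - ∑ i, n i • P i) := by
  have hr : Module.finrank ℤ (G ⧸ Submodule.torsion ℤ G) = Module.finrank ℤ G :=
    finrank_quotient_eq_of_le_torsion le_rfl
  let b := (Module.finBasis ℤ (G ⧸ Submodule.torsion ℤ G)).reindex (finCongr hr)
  choose P hP using fun i => Submodule.Quotient.mk_surjective _ (b i)
  have hcomp : ⇑(Submodule.torsion ℤ G).mkQ ∘ P = ⇑b := funext hP
  refine ⟨P, LinearIndependent.of_comp (Submodule.torsion ℤ G).mkQ
    (hcomp ▸ b.linearIndependent), fun x => ⟨fun i => b.repr (Submodule.Quotient.mk x) i, ?_⟩⟩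
  show x - ∑ i, b.repr (Submodule.Quotient.mk x) i • P i ∈ AddCommGroup.torsion G
  rw [← Submodule.torsion_int, Submodule.mem_toAddSubgroup, ← Submodule.Quotient.mk_eq_zero,
    ← Submodule.mkQ_apply, map_sub, map_sum, sub_eq_zero]
  simp only [map_zsmul, Submodule.mkQ_apply, hP]
  exact (b.sum_repr _).symm

end FA.Height

end
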